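/-
S41 volunteer leaf (R2a), file 3/4: `Γ₀(N)[1/q]` is generated by `Γ₁ = Γ₀(N)` and
`Γ₂ = β⁻¹Γ₀(N)β`:   `Gam q N = Gam1 N ⊔ Gam2 q N`   (for `q` prime, `q ∤ N`).

Descent on the denominator exponent: if `q^(k+1)·γ` is integral, there are `g ∈ Γ₁`, `h ∈ Γ₂`
with `q^k·(h g γ)` integral (a two-step Smith/Euclid move; the choice of `g`, `h` only needs the
Chinese remainder theorem for `q` and `N`).  Mathlib only.
-/
import Mathlib
import Fermat.Agent.S41.Amalgam.Groups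

set_option autoImplicit false

namespace Fermat.Agent.S41.Amalgam.Generation

open Matrix Fermat.Agent.S41.Amalgam.Groups

variable {q N : ℕ} [hq : Fact q.Prime]

/-! ### Integer lemmas -/

theorem natCast_N_ne_zero (hqN : ¬ q ∣ N) : ((N : ℤ) : ZMod q) ≠ 0 := by
  rw [Ne, ZMod.intCast_zmod_eq_zero_iff_dvd]
  exact fun h => hqN (Int.natCast_dvd_natCast.mp h)

/-- CRT: an integer divisible by `N` with prescribed residue mod `q`. -/
theorem exists_int_dvd_cast_eq (hqN : ¬ q ∣ N) (t : ZMod q) :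
    ∃ c : ℤ, (N : ℤ) ∣ c ∧ ((c : ℤ) : ZMod q) = t := by
  have hN := natCast_N_ne_zero (q := q) hqN
  obtain ⟨c', hc'⟩ := ZMod.intCast_surjective (t * (((N : ℤ) : ZMod q))⁻¹)
  refine ⟨N * c', dvd_mul_right _ _, ?_⟩
  push_cast
  rw [hc']
  push_cast at hN ⊢
  field_simp

/-- CRT: an integer `≡ 1 mod N` with prescribed residue mod `q`. -/
theorem exists_int_sub_one_dvd_cast_eq (hqN : ¬ q ∣ N) (t : ZMod q) :
    ∃ a : ℤ, (N : ℤ) ∣ a - 1 ∧ ((a : ℤ) : ZMod q) = t := by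
  obtain ⟨c, hc, hct⟩ := exists_int_dvd_cast_eq (q := q) hqN (t - 1)
  refine ⟨c + 1, by simpa using hc, ?_⟩
  push_cast
  rw [hct]; ring

/-- Linear dependence over the field `ZMod q`. -/
theorem exists_smul_eq {F : Type*} [Field F] {x y x' y' : F} (hdet : x * y' - y * x' = 0)
    (hne : ¬ (x = 0 ∧ y = 0)) : ∃ l : F, x' = l * x ∧ y' = l * y := by
  by_cases hx : x = 0
  · have hy : y ≠ 0 := fun hy => hne ⟨hx, hy⟩
    refine ⟨y' / y, ?_, by field_simp⟩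
    subst hx
    have : y * x' = 0 := by linear_combination -hdet
    rcases mul_eq_zero.1 this with h | h
    · exact absurd h hy
    · simp [h]
  · refine ⟨x' / x, by field_simp, ?_⟩
    field_simp
    linear_combination hdet

theorem dvd_iff_cast_eq_zero (m : ℤ) : (q : ℤ) ∣ m ↔ ((m : ℤ) : ZMod q) = 0 :=
  (ZMod.intCast_zmod_eq_zero_iff_dvd m q).symm

/-- Step 1: a matrix of `Γ₀(N)` making the second row divisible by `q`. -/
theorem exists_step1 (hqN : ¬ q ∣ N) (m00 m01 m10 m11 : ℤ)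
    (hdet : (q : ℤ) ∣ m00 * m11 - m01 * m10)
    (hne : ¬ ((q : ℤ) ∣ m00 ∧ (q : ℤ) ∣ m01 ∧ (q : ℤ) ∣ m10 ∧ (q : ℤ) ∣ m11)) :
    ∃ a b c d : ℤ, a * d - b * c = 1 ∧ (N : ℤ) ∣ c ∧
      (q : ℤ) ∣ c * m00 + d * m10 ∧ (q : ℤ) ∣ c * m01 + d * m11 ∧
      ¬ ((q : ℤ) ∣ a * m00 + b * m10 ∧ (q : ℤ) ∣ a * m01 + b * m11) := by
  -- it suffices to find the matrix with the divisibility of the second row
  suffices h : ∃ a b c d : ℤ, a * d - b * c = 1 ∧ (N : ℤ) ∣ c ∧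
      (q : ℤ) ∣ c * m00 + d * m10 ∧ (q : ℤ) ∣ c * m01 + d * m11 by
    obtain ⟨a, b, c, d, hdet1, hNc, h0, h1⟩ := h
    refine ⟨a, b, c, d, hdet1, hNc, h0, h1, ?_⟩
    rintro ⟨h0', h1'⟩
    apply hne
    have e00 : m00 = d * (a * m00 + b * m10) - b * (c * m00 + d * m10) := by
      linear_combination (-m00) * hdet1
    have e10 : m10 = a * (c * m00 + d * m10) - c * (a * m00 + b * m10) := by
      linear_combination (-m10) * hdet1
    have e01 : m01 = d * (a * m01 + b * m11) - b * (c * m01 + d * m11) := by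
      linear_combination (-m01) * hdet1
    have e11 : m11 = a * (c * m01 + d * m11) - c * (a * m01 + b * m11) := by
      linear_combination (-m11) * hdet1
    refine ⟨?_, ?_, ?_, ?_⟩
    · rw [e00]; exact dvd_sub (dvd_mul_of_dvd_right h0' _) (dvd_mul_of_dvd_right h0 _)
    · rw [e01]; exact dvd_sub (dvd_mul_of_dvd_right h1' _) (dvd_mul_of_dvd_right h1 _)
    · rw [e10]; exact dvd_sub (dvd_mul_of_dvd_right h0 _) (dvd_mul_of_dvd_right h0' _)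
    · rw [e11]; exact dvd_sub (dvd_mul_of_dvd_right h1 _) (dvd_mul_of_dvd_right h1' _)
  by_cases hrow : (q : ℤ) ∣ m00 ∧ (q : ℤ) ∣ m01
  · -- first row divisible by q: use (a₀ b₀; N q)
    have hcop : IsCoprime (q : ℤ) (N : ℤ) := by
      rw [Nat.isCoprime_iff_coprime]
      exact (Nat.Prime.coprime_iff_not_dvd hq.out).2 hqN
    obtain ⟨u, v, huv⟩ := hcop
    -- u * q + v * N = 1
    refine ⟨u, -v, N, q, by linear_combination huv, dvd_refl _, ?_, ?_⟩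
    · exact dvd_add (dvd_mul_of_dvd_right hrow.1 _) (dvd_mul_right _ _)
    · exact dvd_add (dvd_mul_of_dvd_right hrow.2 _) (dvd_mul_right _ _)
  · -- first row nonzero mod q: second row is a multiple, use l(c)
    have hdet' : ((m00 : ℤ) : ZMod q) * ((m11 : ℤ) : ZMod q)
        - ((m01 : ℤ) : ZMod q) * ((m10 : ℤ) : ZMod q) = 0 := by
      have := (dvd_iff_cast_eq_zero (q := q) _).1 hdet
      push_cast at this
      exact this
    have hne' : ¬ (((m00 : ℤ) : ZMod q) = 0 ∧ ((m01 : ℤ) : ZMod q) = 0) := by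
      rintro ⟨h0, h1⟩
      exact hrow ⟨(dvd_iff_cast_eq_zero _).2 h0, (dvd_iff_cast_eq_zero _).2 h1⟩
    obtain ⟨l, hl0, hl1⟩ := exists_smul_eq (x := ((m00 : ℤ) : ZMod q)) (y := ((m01 : ℤ) : ZMod q))
      (x' := ((m10 : ℤ) : ZMod q)) (y' := ((m11 : ℤ) : ZMod q)) hdet' hne'
    obtain ⟨c, hNc, hc⟩ := exists_int_dvd_cast_eq (q := q) hqN (-l)
    refine ⟨1, 0, c, 1, by ring, hNc, ?_, ?_⟩
    · rw [dvd_iff_cast_eq_zero]; push_cast; rw [hc, hl0]; ring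
    · rw [dvd_iff_cast_eq_zero]; push_cast; rw [hc, hl1]; ring

/-- Step 2: the integer `a` of the matrix `(a, 1/q; q(a-1), 1)` of `β⁻¹Γ₀(N)β`. -/
theorem exists_step2 (hqN : ¬ q ∣ N) (m0 m1 n0 n1 : ℤ)
    (hdet : (q : ℤ) ∣ m0 * n1 - m1 * n0) (hne : ¬ ((q : ℤ) ∣ m0 ∧ (q : ℤ) ∣ m1)) :
    ∃ a : ℤ, (N : ℤ) ∣ a - 1 ∧ (q : ℤ) ∣ a * m0 + n0 ∧ (q : ℤ) ∣ a * m1 + n1 := by
  have hdet' : ((m0 : ℤ) : ZMod q) * ((n1 : ℤ) : ZMod q)
      - ((m1 : ℤ) : ZMod q) * ((n0 : ℤ) : ZMod q) = 0 := by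
    have := (dvd_iff_cast_eq_zero (q := q) _).1 hdet
    push_cast at this
    exact this
  have hne' : ¬ (((m0 : ℤ) : ZMod q) = 0 ∧ ((m1 : ℤ) : ZMod q) = 0) := by
    rintro ⟨h0, h1⟩
    exact hne ⟨(dvd_iff_cast_eq_zero _).2 h0, (dvd_iff_cast_eq_zero _).2 h1⟩
  obtain ⟨l, hl0, hl1⟩ := exists_smul_eq (x := ((m0 : ℤ) : ZMod q)) (y := ((m1 : ℤ) : ZMod q))
    (x' := ((n0 : ℤ) : ZMod q)) (y' := ((n1 : ℤ) : ZMod q)) hdet' hne'
  obtain ⟨a, hNa, ha⟩ := exists_int_sub_one_dvd_cast_eq (q := q) hqN (-l)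
  refine ⟨a, hNa, ?_, ?_⟩
  · rw [dvd_iff_cast_eq_zero]; push_cast; rw [ha, hl0]; ring
  · rw [dvd_iff_cast_eq_zero]; push_cast; rw [ha, hl1]; ring

/-! ### Matrices -/

/-- `q^k·γ` is integral. -/
def IntScaled (q k : ℕ) (γ : SL2Q) : Prop := ∀ i j, ∃ m : ℤ, γ i j * (q : ℚ) ^ k = m

/-- The integral matrix `(a b; c d)` as an element of `SL₂(ℚ)`. -/
def mkInt (a b c d : ℤ) (h : a * d - b * c = 1) : SL2Q :=
  ⟨!![(a : ℚ), b; c, d], by
    rw [Matrix.det_fin_two_of]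
    exact_mod_cast h⟩

@[simp] theorem mkInt_00 (a b c d : ℤ) (h : a * d - b * c = 1) : mkInt a b c d h 0 0 = a := rfl
@[simp] theorem mkInt_01 (a b c d : ℤ) (h : a * d - b * c = 1) : mkInt a b c d h 0 1 = b := rfl
@[simp] theorem mkInt_10 (a b c d : ℤ) (h : a * d - b * c = 1) : mkInt a b c d h 1 0 = c := rfl
@[simp] theorem mkInt_11 (a b c d : ℤ) (h : a * d - b * c = 1) : mkInt a b c d h 1 1 = d := rfl

omit hq in
theorem mkInt_mem_Gam1 (a b c d : ℤ) (h : a * d - b * c = 1) (hN : (N : ℤ) ∣ c) :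
    mkInt a b c d h ∈ Gam1 N := by
  obtain ⟨c', rfl⟩ := hN
  refine ⟨?_, c', by simp⟩
  rw [forall_fin2]
  exact ⟨⟨a, rfl⟩, ⟨b, rfl⟩, ⟨N * c', rfl⟩, ⟨d, rfl⟩⟩

/-- The matrix `(a, 1/q; q(a-1), 1)`. -/
def mkH (q : ℕ) [Fact q.Prime] (a : ℤ) : SL2Q :=
  ⟨!![(a : ℚ), 1 / q; q * (a - 1), 1], by
    rw [Matrix.det_fin_two_of]
    have := q_ne_zero q
    field_simp
    ring⟩

@[simp] theorem mkH_00 (a : ℤ) : mkH q a 0 0 = a := rfl
@[simp] theorem mkH_01 (a : ℤ) : mkH q a 0 1 = 1 / q := rfl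
@[simp] theorem mkH_10 (a : ℤ) : mkH q a 1 0 = q * (a - 1) := rfl
@[simp] theorem mkH_11 (a : ℤ) : mkH q a 1 1 = 1 := rfl

theorem mkH_mem_Gam2 (a : ℤ) (hN : (N : ℤ) ∣ a - 1) : mkH q a ∈ Gam2 q N := by
  obtain ⟨c', hc'⟩ := hN
  refine ⟨a, 1, c', 1, rfl, by simp, ?_, by simp⟩
  rw [mkH_10]
  have : ((a : ℚ) - 1) = N * c' := by exact_mod_cast hc'
  rw [this]

/-- The descent step. -/
theorem exists_descent (hqN : ¬ q ∣ N) (k : ℕ) (γ : SL2Q) (hγ : IntScaled q (k + 1) γ) :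
    ∃ s ∈ Gam1 N ⊔ Gam2 q N, IntScaled q k (s * γ) := by
  have hq0 : (q : ℚ) ≠ 0 := q_ne_zero q
  obtain ⟨m00, h00⟩ := hγ 0 0
  obtain ⟨m01, h01⟩ := hγ 0 1
  obtain ⟨m10, h10⟩ := hγ 1 0
  obtain ⟨m11, h11⟩ := hγ 1 1
  -- the determinant of the scaled matrix
  have hdetQ : ((m00 * m11 - m01 * m10 : ℤ) : ℚ) = ((q : ℚ) ^ (k + 1)) ^ 2 := by
    push_cast
    rw [← h00, ← h01, ← h10, ← h11]
    linear_combination ((q : ℚ) ^ (k + 1)) ^ 2 * det_eq γ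
  have hdetZ : m00 * m11 - m01 * m10 = ((q : ℤ) ^ (k + 1)) ^ 2 := by exact_mod_cast hdetQ
  have hdvd : (q : ℤ) ∣ m00 * m11 - m01 * m10 := by
    rw [hdetZ, ← pow_mul]
    exact dvd_pow_self _ (by positivity)
  by_cases hall : (q : ℤ) ∣ m00 ∧ (q : ℤ) ∣ m01 ∧ (q : ℤ) ∣ m10 ∧ (q : ℤ) ∣ m11
  · -- everything divisible: nothing to do
    refine ⟨1, one_mem _, ?_⟩
    rw [one_mul]
    obtain ⟨⟨n00, rfl⟩, ⟨n01, rfl⟩, ⟨n10, rfl⟩, ⟨n11, rfl⟩⟩ := hall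
    intro i j
    have key : ∀ (x : ℚ) (n : ℤ), x * (q : ℚ) ^ (k + 1) = ((q * n : ℤ) : ℚ) →
        x * (q : ℚ) ^ k = n := by
      intro x n hx
      push_cast at hx
      have : (q : ℚ) * (x * (q : ℚ) ^ k) = q * n := by rw [← hx]; ring
      exact mul_left_cancel₀ hq0 this
    fin_cases i <;> fin_cases j
    · exact ⟨n00, key _ _ h00⟩
    · exact ⟨n01, key _ _ h01⟩
    · exact ⟨n10, key _ _ h10⟩
    · exact ⟨n11, key _ _ h11⟩
  · -- Step 1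
    obtain ⟨a, b, c, d, hdet1, hNc, ⟨n0, hn0⟩, ⟨n1, hn1⟩, hrow⟩ :=
      exists_step1 (q := q) hqN m00 m01 m10 m11 hdvd hall
    set g : SL2Q := mkInt a b c d hdet1 with hg
    have hgmem : g ∈ Gam1 N := mkInt_mem_Gam1 a b c d hdet1 hNc
    -- entries of K·(gγ)
    set p0 : ℤ := a * m00 + b * m10 with hp0
    set p1 : ℤ := a * m01 + b * m11 with hp1
    have e00 : (g * γ) 0 0 * (q : ℚ) ^ (k + 1) = p0 := by
      rw [Groups.mul_apply', hg, mkInt_00, mkInt_01, hp0]; push_cast; rw [← h00, ← h10]; ring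
    have e01 : (g * γ) 0 1 * (q : ℚ) ^ (k + 1) = p1 := by
      rw [Groups.mul_apply', hg, mkInt_00, mkInt_01, hp1]; push_cast; rw [← h01, ← h11]; ring
    have e10 : (g * γ) 1 0 * (q : ℚ) ^ (k + 1) = q * n0 := by
      rw [Groups.mul_apply', hg, mkInt_10, mkInt_11]
      have : ((c * m00 + d * m10 : ℤ) : ℚ) = ((q * n0 : ℤ) : ℚ) := by rw [hn0]
      push_cast at this
      rw [← this, ← h00, ← h10]; ring
    have e11 : (g * γ) 1 1 * (q : ℚ) ^ (k + 1) = q * n1 := by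
      rw [Groups.mul_apply', hg, mkInt_10, mkInt_11]
      have : ((c * m01 + d * m11 : ℤ) : ℚ) = ((q * n1 : ℤ) : ℚ) := by rw [hn1]
      push_cast at this
      rw [← this, ← h01, ← h11]; ring
    -- determinant after step 1
    have hdet2Q : ((q : ℚ)) * ((p0 * n1 - p1 * n0 : ℤ) : ℚ) = ((q : ℚ) ^ (k + 1)) ^ 2 := by
      push_cast
      have := det_eq (g * γ)
      have h1 : (p0 : ℚ) * (q * n1) - p1 * (q * n0) = ((q : ℚ) ^ (k + 1)) ^ 2 := by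
        rw [← e00, ← e01, ← e10, ← e11]
        linear_combination ((q : ℚ) ^ (k + 1)) ^ 2 * this
      linear_combination h1
    have hdet2Z : (q : ℤ) * (p0 * n1 - p1 * n0) = ((q : ℤ) ^ (k + 1)) ^ 2 := by
      exact_mod_cast hdet2Q
    have hdvd2 : (q : ℤ) ∣ p0 * n1 - p1 * n0 := by
      have hqz : (q : ℤ) ≠ 0 := by exact_mod_cast hq.out.ne_zero
      have : (q : ℤ) * (p0 * n1 - p1 * n0) = (q : ℤ) * ((q : ℤ) * (q : ℤ) ^ (2 * k)) := by
        rw [hdet2Z]; ring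
      have := mul_left_cancel₀ hqz this
      rw [this]; exact dvd_mul_right _ _
    -- Step 2
    obtain ⟨a', hNa', ⟨r0, hr0⟩, ⟨r1, hr1⟩⟩ :=
      exists_step2 (q := q) hqN p0 p1 n0 n1 hdvd2 hrow
    set h : SL2Q := mkH q a' with hh
    have hhmem : h ∈ Gam2 q N := mkH_mem_Gam2 a' hNa'
    refine ⟨h * g, Subgroup.mul_mem _ (Subgroup.mem_sup_right hhmem)
      (Subgroup.mem_sup_left hgmem), ?_⟩
    rw [mul_assoc]
    have hr0Q : (a' : ℚ) * p0 + n0 = q * r0 := by exact_mod_cast hr0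
    have hr1Q : (a' : ℚ) * p1 + n1 = q * r1 := by exact_mod_cast hr1
    have key : ∀ (x : ℚ) (n : ℤ), x * (q : ℚ) ^ (k + 1) = (q : ℚ) * n →
        x * (q : ℚ) ^ k = n := by
      intro x n hx
      have : (q : ℚ) * (x * (q : ℚ) ^ k) = q * n := by rw [← hx]; ring
      exact mul_left_cancel₀ hq0 this
    intro i j
    fin_cases i <;> fin_cases j
    · refine ⟨r0, key _ _ ?_⟩
      show (h * (g * γ)) 0 0 * (q : ℚ) ^ (k + 1) = q * r0
      rw [Groups.mul_apply', hh, mkH_00, mkH_01, ← hr0Q]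
      have : (g * γ) 1 0 * (q : ℚ) ^ (k + 1) / q = n0 := by rw [e10]; field_simp
      rw [← this, ← e00]; field_simp
    · refine ⟨r1, key _ _ ?_⟩
      show (h * (g * γ)) 0 1 * (q : ℚ) ^ (k + 1) = q * r1
      rw [Groups.mul_apply', hh, mkH_00, mkH_01, ← hr1Q]
      have : (g * γ) 1 1 * (q : ℚ) ^ (k + 1) / q = n1 := by rw [e11]; field_simp
      rw [← this, ← e01]; field_simp
    · refine ⟨(a' - 1) * p0 + n0, key _ _ ?_⟩
      show (h * (g * γ)) 1 0 * (q : ℚ) ^ (k + 1) = q * ((((a' - 1) * p0 + n0 : ℤ)) : ℚ)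
      rw [Groups.mul_apply', hh, mkH_10, mkH_11]
      push_cast
      rw [← e00]
      have : (q : ℚ) * n0 = (g * γ) 1 0 * (q : ℚ) ^ (k + 1) := e10.symm
      linear_combination (-1 : ℚ) * this
    · refine ⟨(a' - 1) * p1 + n1, key _ _ ?_⟩
      show (h * (g * γ)) 1 1 * (q : ℚ) ^ (k + 1) = q * ((((a' - 1) * p1 + n1 : ℤ)) : ℚ)
      rw [Groups.mul_apply', hh, mkH_10, mkH_11]
      push_cast
      rw [← e01]
      have : (q : ℚ) * n1 = (g * γ) 1 1 * (q : ℚ) ^ (k + 1) := e11.symm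
      linear_combination (-1 : ℚ) * this

/-- Integral elements of `Γ₀(N)[1/q]` lie in `Γ₁`. -/
theorem mem_Gam1_of_intScaled_zero (hqN : ¬ q ∣ N) {γ : SL2Q} (hγ : γ ∈ Gam q N)
    (h0 : IntScaled q 0 γ) : γ ∈ Gam1 N := by
  have hq0 : (q : ℚ) ≠ 0 := q_ne_zero q
  have hint : ∀ i j, ∃ m : ℤ, γ i j = m := fun i j => by
    obtain ⟨m, hm⟩ := h0 i j
    exact ⟨m, by simpa using hm⟩
  refine ⟨hint, ?_⟩
  obtain ⟨c, hc⟩ := hint 1 0
  obtain ⟨y, ⟨j, n, hy⟩, hNy⟩ := hγ.2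
  -- c * q^j = N * n
  have h1 : (c : ℚ) * (q : ℚ) ^ j = N * n := by
    rw [← hc, hNy, ← hy]; ring
  have h1Z : c * (q : ℤ) ^ j = N * n := by exact_mod_cast h1
  have hcop : IsCoprime ((q : ℤ) ^ j) (N : ℤ) := by
    apply IsCoprime.pow_left
    rw [Nat.isCoprime_iff_coprime]
    exact (Nat.Prime.coprime_iff_not_dvd hq.out).2 hqN
  have hdvd : (q : ℤ) ^ j ∣ n := by
    apply hcop.dvd_of_dvd_mul_left
    rw [← h1Z]; exact dvd_mul_left _ _
  obtain ⟨n', rfl⟩ := hdvd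
  refine ⟨n', ?_⟩
  have hqj : ((q : ℤ) ^ j) ≠ 0 := pow_ne_zero _ (by exact_mod_cast hq.out.ne_zero)
  have : c = N * n' := by
    apply mul_right_cancel₀ hqj
    rw [h1Z]; ring
  rw [hc, this]; push_cast; ring

omit hq in
/-- Every element of `Γ₀(N)[1/q]` has a common denominator exponent. -/
theorem exists_intScaled {γ : SL2Q} (hγ : γ ∈ Gam q N) : ∃ k, IntScaled q k γ := by
  obtain ⟨k00, m00, h00⟩ := hγ.1 0 0
  obtain ⟨k01, m01, h01⟩ := hγ.1 0 1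
  obtain ⟨k10, m10, h10⟩ := hγ.1 1 0
  obtain ⟨k11, m11, h11⟩ := hγ.1 1 1
  refine ⟨k00 + k01 + k10 + k11, ?_⟩
  intro i j
  fin_cases i <;> fin_cases j
  · exact ⟨m00 * q ^ (k01 + k10 + k11), by
      show γ 0 0 * _ = _
      push_cast; rw [← h00]; ring⟩
  · exact ⟨m01 * q ^ (k00 + k10 + k11), by
      show γ 0 1 * _ = _
      push_cast; rw [← h01]; ring⟩
  · exact ⟨m10 * q ^ (k00 + k01 + k11), by
      show γ 1 0 * _ = _
      push_cast; rw [← h10]; ring⟩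
  · exact ⟨m11 * q ^ (k00 + k01 + k10), by
      show γ 1 1 * _ = _
      push_cast; rw [← h11]; ring⟩

theorem sup_le_Gam : Gam1 N ⊔ Gam2 q N ≤ Gam q N :=
  sup_le (Gam1_le q N) (Gam2_le q N)

theorem mem_sup_of_intScaled (hqN : ¬ q ∣ N) :
    ∀ (k : ℕ) (γ : SL2Q), γ ∈ Gam q N → IntScaled q k γ → γ ∈ Gam1 N ⊔ Gam2 q N := by
  intro k
  induction k with
  | zero =>
    intro γ hγ h0
    exact Subgroup.mem_sup_left (mem_Gam1_of_intScaled_zero hqN hγ h0)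
  | succ k ih =>
    intro γ hγ hk
    obtain ⟨s, hs, hsγ⟩ := exists_descent (N := N) hqN k γ hk
    have hsγmem : s * γ ∈ Gam q N := Subgroup.mul_mem _ (sup_le_Gam hs) hγ
    have := ih (s * γ) hsγmem hsγ
    have h2 : γ = s⁻¹ * (s * γ) := by group
    rw [h2]
    exact Subgroup.mul_mem _ (Subgroup.inv_mem _ hs) this

/-- **Generation**: `Γ₀(N)[1/q] = Γ₁ ⊔ Γ₂`. -/
theorem Gam_eq_sup (hqN : ¬ q ∣ N) : Gam q N = Gam1 N ⊔ Gam2 q N := by
  apply le_antisymm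
  · intro γ hγ
    obtain ⟨k, hk⟩ := exists_intScaled hγ
    exact mem_sup_of_intScaled hqN k γ hγ hk
  · exact sup_le_Gam

end Fermat.Agent.S41.Amalgam.Generation
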