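/-
S41 volunteer leaf (R2a), file 4/4: **Ihara's amalgam theorem** for `Γ₀(N)[1/q]`
(`q` prime, `q ∤ N`), inside `SL₂(ℚ)`:

  `Monoid.PushoutI (Γ₁ ← Γ₁ ⊓ Γ₂ → Γ₂)  ≃*  Γ₀(N)[1/q]`,

and the form consumed by Ihara's lemma: a pair of homomorphisms `φ₁ : Γ₁ →* K`, `φ₂ : Γ₂ →* K`
agreeing on `Γ₁ ⊓ Γ₂` extends uniquely to `Γ₀(N)[1/q]`.

Injectivity is the ping-pong of `PingPong`/`Groups` applied to Mathlib's normal words;
surjectivity is `Generation.Gam_eq_sup`.  Mathlib only.
-/
import Mathlib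
import Fermat.Agent.S41.Amalgam.Generation

set_option autoImplicit false

namespace Fermat.Agent.S41.Amalgam.Pushout

open Monoid Fermat.Agent.S41.Amalgam.Groups Fermat.Agent.S41.Amalgam.PingPong
  Fermat.Agent.S41.Amalgam.Generation

variable (q N : ℕ) [hq : Fact q.Prime]

/-- The two vertex groups: `true ↦ Γ₁`, `false ↦ Γ₂`. -/
def Gf : Bool → Subgroup SL2Q
  | true => Gam1 N
  | false => Gam2 q N

/-- The edge group. -/
abbrev Hb : Subgroup SL2Q := Gam1 N ⊓ Gam2 q N

theorem Hb_le (b : Bool) : Hb q N ≤ Gf q N b := by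
  cases b
  · exact inf_le_right
  · exact inf_le_left

theorem Gf_le (b : Bool) : Gf q N b ≤ Gam q N := by
  cases b
  · exact Gam2_le q N
  · exact Gam1_le q N

/-- The inclusions of the edge group. -/
def φ (b : Bool) : ↥(Hb q N) →* ↥(Gf q N b) := Subgroup.inclusion (Hb_le q N b)

theorem φ_injective (b : Bool) : Function.Injective (φ q N b) :=
  Subgroup.inclusion_injective _

theorem mem_range_φ {b : Bool} (g : ↥(Gf q N b)) :
    g ∈ (φ q N b).range ↔ (g : SL2Q) ∈ Hb q N := by
  constructor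
  · rintro ⟨h, rfl⟩; exact h.2
  · intro h; exact ⟨⟨g, h⟩, rfl⟩

/-- The canonical map from the amalgam to `SL₂(ℚ)`. -/
def toSL : PushoutI (φ q N) →* SL2Q :=
  PushoutI.lift (fun b => (Gf q N b).subtype) (Hb q N).subtype (fun b => by ext; rfl)

@[simp] theorem toSL_of (b : Bool) (g : ↥(Gf q N b)) : toSL q N (PushoutI.of b g) = g := by
  simp [toSL]

@[simp] theorem toSL_base (h : ↥(Hb q N)) : toSL q N (PushoutI.base (φ q N) h) = h := by
  simp [toSL]

/-- The ping-pong sets indexed by `Bool`: a letter of type `b` maps `X b` into `X !b`. -/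
def X : Bool → Set (ℚ × ℚ)
  | true => X1 q
  | false => X2 q

omit hq in
theorem X_disjoint (b : Bool) {x : ℚ × ℚ} (h1 : x ∈ X q b) (h2 : x ∈ X q (!b)) : False := by
  cases b
  · exact disjoint_X1_X2 q h2 h1
  · exact disjoint_X1_X2 q h1 h2

omit hq in
theorem X_nonempty (b : Bool) : ∃ x, x ∈ X q b := by
  cases b
  · exact ⟨_, zero_one_mem_X2 q⟩
  · exact ⟨_, one_zero_mem_X1 q⟩

variable {q N}

/-- A non-base letter of type `b` maps `X b` into `X !b`. -/
theorem letter_maps (hqN : ¬ q ∣ N) {b : Bool} {g : SL2Q} (hg : g ∈ Gf q N b)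
    (hnb : g ∉ Hb q N) {x : ℚ × ℚ} (hx : x ∈ X q b) : smulV g x ∈ X q (!b) := by
  cases b
  · -- type 2
    have h1 : g ∉ Gam1 N := fun h => hnb ⟨h, hg⟩
    exact smulV_mem_X1 (N := N) hg h1 hx
  · have h2 : g ∉ Gam2 q N := fun h => hnb ⟨hg, h⟩
    exact smulV_mem_X2 hqN hg h2 hx

/-- Strictness: a non-base letter of type `b` maps some point of `X !b` into `X !b`. -/
theorem letter_strict (hqN : ¬ q ∣ N) {b : Bool} {g : SL2Q} (hg : g ∈ Gf q N b)
    (hnb : g ∉ Hb q N) : ∃ x ∈ X q (!b), smulV g x ∈ X q (!b) := by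
  cases b
  · have h1 : g ∉ Gam1 N := fun h => hnb ⟨h, hg⟩
    exact exists_X1_smulV_mem_X1 (N := N) hg h1
  · have h2 : g ∉ Gam2 q N := fun h => hnb ⟨hg, h⟩
    exact exists_X2_smulV_mem_X2 hqN hg h2

/-- Base elements preserve the ping-pong sets. -/
theorem base_maps {k : SL2Q} (hk : k ∈ Hb q N) (b : Bool) {x : ℚ × ℚ} (hx : x ∈ X q b) :
    smulV k x ∈ X q b := by
  cases b
  · exact smulV_base_X2 hk hx
  · exact smulV_base_X1 hk hx

/-- Evaluation of a list of letters in `SL₂(ℚ)`. -/
def evalL (L : List (Σ b, ↥(Gf q N b))) : SL2Q := (L.map fun l => (l.2 : SL2Q)).prod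

@[simp] theorem evalL_nil : evalL ([] : List (Σ b, ↥(Gf q N b))) = 1 := rfl

@[simp] theorem evalL_cons (s : Σ b, ↥(Gf q N b)) (L : List (Σ b, ↥(Gf q N b))) :
    evalL (s :: L) = (s.2 : SL2Q) * evalL L := by
  simp [evalL]

/-- The index of the last letter of `s :: L`. -/
def lastI : (Σ b, ↥(Gf q N b)) → List (Σ b, ↥(Gf q N b)) → Bool
  | s, [] => s.1
  | _, t :: L => lastI t L

/-- Ping-pong along a reduced alternating list. -/
theorem evalL_maps (hqN : ¬ q ∣ N) :
    ∀ (L : List (Σ b, ↥(Gf q N b))) (s : Σ b, ↥(Gf q N b)),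
      (s :: L).IsChain (fun l l' => l.1 ≠ l'.1) →
      (∀ l ∈ s :: L, (l.2 : SL2Q) ∉ Hb q N) →
      ∀ x ∈ X q (lastI s L), smulV (evalL (s :: L)) x ∈ X q (!s.1) := by
  intro L
  induction L with
  | nil =>
    intro s _ hnb x hx
    rw [evalL_cons, evalL_nil, mul_one]
    exact letter_maps hqN s.2.2 (hnb s (List.mem_cons_self)) hx
  | cons t L ih =>
    intro s hchain hnb x hx
    rw [List.isChain_cons_cons] at hchain
    have hx' : x ∈ X q (lastI t L) := hx
    have h1 := ih t hchain.2 (fun l hl => hnb l (List.mem_cons_of_mem _ hl)) x hx'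
    have hst : (!t.1) = s.1 := by
      have := hchain.1
      revert this
      cases s.1 <;> cases t.1 <;> simp
    rw [hst] at h1
    rw [evalL_cons, smulV_mul]
    exact letter_maps hqN s.2.2 (hnb s (List.mem_cons_self)) h1

/-- A nonempty reduced alternating list does not evaluate into the base group. -/
theorem evalL_not_mem_base (hqN : ¬ q ∣ N) (L : List (Σ b, ↥(Gf q N b)))
    (s : Σ b, ↥(Gf q N b)) (hchain : (s :: L).IsChain (fun l l' => l.1 ≠ l'.1))
    (hnb : ∀ l ∈ s :: L, (l.2 : SL2Q) ∉ Hb q N) : evalL (s :: L) ∉ Hb q N := by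
  intro hk
  by_cases hlast : lastI s L = s.1
  · -- odd length: `X s.1` is sent to `X !s.1` and preserved
    obtain ⟨x, hx⟩ := X_nonempty q s.1
    have h1 := evalL_maps hqN L s hchain hnb x (by rw [hlast]; exact hx)
    have h2 := base_maps hk s.1 hx
    exact X_disjoint q s.1 h2 h1
  · -- even length
    cases L with
    | nil => exact hlast rfl
    | cons t L' =>
      rw [List.isChain_cons_cons] at hchain
      have hts : t.1 = !s.1 := by
        have := hchain.1
        revert this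
        cases s.1 <;> cases t.1 <;> simp
      have hlast' : lastI t L' = !s.1 := by
        have : lastI s (t :: L') = lastI t L' := rfl
        rw [this] at hlast
        revert hlast
        cases s.1 <;> cases lastI t L' <;> simp
      -- g' := s⁻¹ * k is a non-base letter of type `s.1`
      set g' : SL2Q := (s.2 : SL2Q)⁻¹ * evalL (s :: t :: L') with hg'
      have hg'eq : g' = evalL (t :: L') := by
        rw [hg', evalL_cons s]; group
      have hg'mem : g' ∈ Gf q N s.1 :=
        Subgroup.mul_mem _ (Subgroup.inv_mem _ s.2.2) (Hb_le q N s.1 hk)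
      have hg'nb : g' ∉ Hb q N := by
        intro h
        apply hnb s (List.mem_cons_self)
        have : (s.2 : SL2Q) = evalL (s :: t :: L') * g'⁻¹ := by rw [hg']; group
        rw [this]
        exact Subgroup.mul_mem _ hk (Subgroup.inv_mem _ h)
      obtain ⟨x, hx, hgx⟩ := letter_strict hqN hg'mem hg'nb
      have h1 := evalL_maps hqN L' t hchain.2
        (fun l hl => hnb l (List.mem_cons_of_mem _ hl)) x (by rw [hlast']; exact hx)
      rw [← hg'eq, hts, Bool.not_not] at h1
      exact X_disjoint q s.1 h1 hgx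

variable (q N)

theorem toSL_ofCoprodI_prod (w : CoprodI.Word fun b => ↥(Gf q N b)) :
    toSL q N (PushoutI.ofCoprodI w.prod) = evalL w.toList := by
  rw [CoprodI.Word.prod, map_list_prod, map_list_prod, List.map_map, List.map_map, evalL]
  congr 1

/-- **Injectivity** of the canonical map from the amalgam. -/
theorem toSL_injective (hqN : ¬ q ∣ N) : Function.Injective (toSL q N) := by
  classical
  rw [injective_iff_map_eq_one]
  intro x hx
  obtain ⟨d⟩ := PushoutI.NormalWord.transversal_nonempty (φ q N) (φ_injective q N)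
  obtain ⟨w, rfl⟩ := (PushoutI.NormalWord.equiv (d := d)).symm.surjective x
  change toSL q N w.prod = 1 at hx
  rw [PushoutI.NormalWord.prod, map_mul, toSL_base, toSL_ofCoprodI_prod] at hx
  -- letters of a normal word are not in the base group
  have hnb : ∀ l ∈ w.toList, (l.2 : SL2Q) ∉ Hb q N := by
    rintro ⟨b, g⟩ hl hmem
    have hgset : g ∈ d.set b := w.normalized b g hl
    have hgne : g ≠ 1 := w.ne_one _ hl
    have hgr : g ∈ (φ q N b).range := (mem_range_φ q N g).2 hmem
    obtain ⟨y, _, hy⟩ := (d.compl b).existsUnique g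
    have e1 := hy (⟨g, hgr⟩, ⟨1, d.one_mem b⟩) (by simp)
    have e2 := hy (⟨1, one_mem _⟩, ⟨g, hgset⟩) (by simp)
    have := e1.trans e2.symm
    apply hgne
    have h3 := congrArg (fun z => (z.2 : ↥(Gf q N b))) this
    exact h3.symm
  cases hL : w.toList with
  | nil =>
    rw [hL, evalL_nil, mul_one] at hx
    have hhead : w.head = 1 := Subtype.ext hx
    have : w = PushoutI.NormalWord.empty := by
      apply PushoutI.NormalWord.ext
      · simpa using hhead
      · simpa using hL
    rw [this]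
    exact PushoutI.NormalWord.prod_empty
  | cons s L =>
    exfalso
    rw [hL] at hx hnb
    have hchain : (s :: L).IsChain (fun l l' => l.1 ≠ l'.1) := hL ▸ w.chain_ne
    apply evalL_not_mem_base hqN L s hchain hnb
    have : evalL (s :: L) = ((w.head : ↥(Hb q N)) : SL2Q)⁻¹ :=
      eq_inv_of_mul_eq_one_right hx
    rw [this]
    exact Subgroup.inv_mem _ w.head.2

/-- The range of the canonical map is `Γ₀(N)[1/q]`. -/
theorem range_toSL (hqN : ¬ q ∣ N) : (toSL q N).range = Gam q N := by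
  apply le_antisymm
  · rintro _ ⟨x, rfl⟩
    induction x using PushoutI.induction_on with
    | of b g => rw [toSL_of]; exact Gf_le q N b g.2
    | base h => rw [toSL_base]; exact Gam1_le q N h.2.1
    | mul x y hx hy => rw [map_mul]; exact Subgroup.mul_mem _ hx hy
  · rw [Gam_eq_sup hqN]
    apply sup_le
    · intro g hg
      exact ⟨PushoutI.of true ⟨g, hg⟩, by simp⟩
    · intro g hg
      exact ⟨PushoutI.of false ⟨g, hg⟩, by simp⟩

/-- **Ihara's amalgam theorem**: `Γ₀(N)[1/q] ≃* Γ₁ *_{Γ₁ ⊓ Γ₂} Γ₂`. -/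
noncomputable def amalgamEquiv (hqN : ¬ q ∣ N) : PushoutI (φ q N) ≃* ↥(Gam q N) :=
  (MonoidHom.ofInjective (toSL_injective q N hqN)).trans
    (MulEquiv.subgroupCongr (range_toSL q N hqN))

theorem amalgamEquiv_apply (hqN : ¬ q ∣ N) (x : PushoutI (φ q N)) :
    ((amalgamEquiv q N hqN x : ↥(Gam q N)) : SL2Q) = toSL q N x := rfl

/-- **Extension of compatible pairs** (the form used for Ihara's lemma): homomorphisms on `Γ₁`
and `Γ₂` agreeing on `Γ₁ ⊓ Γ₂` extend uniquely to `Γ₀(N)[1/q]`. -/
theorem existsUnique_extension (hqN : ¬ q ∣ N) {K : Type*} [Group K]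
    (φ₁ : ↥(Gam1 N) →* K) (φ₂ : ↥(Gam2 q N) →* K)
    (hcompat : ∀ (g : SL2Q) (h1 : g ∈ Gam1 N) (h2 : g ∈ Gam2 q N), φ₁ ⟨g, h1⟩ = φ₂ ⟨g, h2⟩) :
    ∃! Φ : ↥(Gam q N) →* K,
      (∀ (g : SL2Q) (h : g ∈ Gam1 N), Φ ⟨g, Gam1_le q N h⟩ = φ₁ ⟨g, h⟩) ∧
      (∀ (g : SL2Q) (h : g ∈ Gam2 q N), Φ ⟨g, Gam2_le q N h⟩ = φ₂ ⟨g, h⟩) := by
  -- the family of homomorphisms on the vertex groups
  let f : ∀ b, ↥(Gf q N b) →* K := fun b =>
    match b with
    | true => φ₁
    | false => φ₂
  let k : ↥(Hb q N) →* K := φ₁.comp (Subgroup.inclusion inf_le_left)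
  have hf : ∀ b, (f b).comp (φ q N b) = k := by
    intro b
    cases b
    · ext h
      exact (hcompat h.1 h.2.1 h.2.2).symm
    · ext h; rfl
  let Ψ : PushoutI (φ q N) →* K := PushoutI.lift f k hf
  let e := amalgamEquiv q N hqN
  refine ⟨Ψ.comp e.symm.toMonoidHom, ⟨?_, ?_⟩, ?_⟩
  · intro g h
    have : e.symm ⟨g, Gam1_le q N h⟩ = PushoutI.of true ⟨g, h⟩ := by
      rw [MulEquiv.symm_apply_eq]
      apply Subtype.ext
      rw [amalgamEquiv_apply, toSL_of]
    show Ψ (e.symm ⟨g, Gam1_le q N h⟩) = _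
    rw [this]
    exact PushoutI.lift_of f k hf _
  · intro g h
    have : e.symm ⟨g, Gam2_le q N h⟩ = PushoutI.of false ⟨g, h⟩ := by
      rw [MulEquiv.symm_apply_eq]
      apply Subtype.ext
      rw [amalgamEquiv_apply, toSL_of]
    show Ψ (e.symm ⟨g, Gam2_le q N h⟩) = _
    rw [this]
    exact PushoutI.lift_of f k hf _
  · rintro Φ' ⟨h1, h2⟩
    have : Φ'.comp e.toMonoidHom = Ψ := by
      apply PushoutI.hom_ext
      · intro b
        cases b
        · ext g
          show Φ' (e (PushoutI.of false g)) = Ψ (PushoutI.of false g)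
          have : e (PushoutI.of false g) = ⟨g.1, Gam2_le q N g.2⟩ := by
            apply Subtype.ext
            rw [amalgamEquiv_apply, toSL_of]
          rw [this, h2 g.1 g.2]
          exact (PushoutI.lift_of f k hf (i := false) g).symm
        · ext g
          show Φ' (e (PushoutI.of true g)) = Ψ (PushoutI.of true g)
          have : e (PushoutI.of true g) = ⟨g.1, Gam1_le q N g.2⟩ := by
            apply Subtype.ext
            rw [amalgamEquiv_apply, toSL_of]
          rw [this, h1 g.1 g.2]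
          exact (PushoutI.lift_of f k hf (i := true) g).symm
      · ext h
        show Φ' (e (PushoutI.base (φ q N) h)) = Ψ (PushoutI.base (φ q N) h)
        have : e (PushoutI.base (φ q N) h) = ⟨h.1, Gam1_le q N h.2.1⟩ := by
          apply Subtype.ext
          rw [amalgamEquiv_apply, toSL_base]
        rw [this, h1 h.1 h.2.1]
        exact (PushoutI.lift_base f k hf _).symm
    ext g
    have hg : g = e (e.symm g) := (e.apply_symm_apply g).symm
    show Φ' g = Ψ (e.symm g)
    rw [← this]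
    show Φ' g = Φ' (e (e.symm g))
    rw [← hg]

end Fermat.Agent.S41.Amalgam.Pushout
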