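/-
S41 volunteer leaf (R2a), file 1/4: the ping-pong table for Ihara's amalgam
`Γ₀(N)[1/q] = Γ₀(N) *_{Γ₀(Nq)} β⁻¹Γ₀(N)β`.

Pure `ℚ`-arithmetic with the `q`-adic norm.  A `2 × 2` matrix `(a b; c d)` acts on `ℚ × ℚ`
(column vectors).  `X1 = {|v| < |u|}`, `X2 = {|u| ≤ |v|, v ≠ 0}`.

* type 1 (`|a|,|b|,|d| ≤ 1`, `|c| = 1`)            maps `X1` into `X2`;
* type 2 (`|a|,|d| ≤ 1`, `|b| = q`, `|c| ≤ 1/q`)   maps `X2` into `X1`;
* base   (`|a| = |d| = 1`, `|b| ≤ 1`, `|c| < 1`)    preserves `X1` and `X2`;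
* strictness: a type 1 matrix sends some point of `X2` into `X2`, a type 2 matrix sends some
  point of `X1` into `X1`.
Mathlib only.
-/
import Mathlib

set_option autoImplicit false

namespace Fermat.Agent.S41.Amalgam.PingPong

variable (q : ℕ)

/-- The first ping-pong set: `|v| < |u|`. -/
def X1 : Set (ℚ × ℚ) := {x | padicNorm q x.2 < padicNorm q x.1}

/-- The second ping-pong set: `|u| ≤ |v|`, `v ≠ 0`. -/
def X2 : Set (ℚ × ℚ) := {x | padicNorm q x.1 ≤ padicNorm q x.2 ∧ x.2 ≠ 0}

/-- The action of the matrix `(a b; c d)` on column vectors. -/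
def act (a b c d : ℚ) (x : ℚ × ℚ) : ℚ × ℚ := (a * x.1 + b * x.2, c * x.1 + d * x.2)

theorem disjoint_X1_X2 {x : ℚ × ℚ} (h1 : x ∈ X1 q) (h2 : x ∈ X2 q) : False :=
  absurd h1 (not_lt.2 h2.1)

theorem one_zero_mem_X1 : ((1 : ℚ), (0 : ℚ)) ∈ X1 q := by
  simp [X1]

theorem zero_one_mem_X2 : ((0 : ℚ), (1 : ℚ)) ∈ X2 q := by
  simp [X2]

variable {q}

private theorem ne_of_norm_pos {x : ℚ} (hx : 0 < padicNorm q x) : x ≠ 0 := by
  rintro rfl
  simp at hx

variable [hq : Fact q.Prime]

private theorem norm_pos_of_ne {x : ℚ} (hx : x ≠ 0) : 0 < padicNorm q x :=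
  lt_of_le_of_ne (padicNorm.nonneg x) (Ne.symm (padicNorm.nonzero hx))

/-- type 1 maps `X1` into `X2`. -/
theorem type1_maps {a b c d : ℚ} (ha : padicNorm q a ≤ 1) (hb : padicNorm q b ≤ 1)
    (hc : padicNorm q c = 1) (hd : padicNorm q d ≤ 1) {x : ℚ × ℚ} (hx : x ∈ X1 q) :
    act a b c d x ∈ X2 q := by
  obtain ⟨u, v⟩ := x
  simp only [X1, Set.mem_ofPred_eq] at hx
  have hu0 : 0 < padicNorm q u := lt_of_le_of_lt (padicNorm.nonneg v) hx
  have hcu : padicNorm q (c * u) = padicNorm q u := by rw [padicNorm.mul, hc, one_mul]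
  have hdv : padicNorm q (d * v) < padicNorm q u := by
    rw [padicNorm.mul]
    calc padicNorm q d * padicNorm q v ≤ 1 * padicNorm q v :=
          mul_le_mul_of_nonneg_right hd (padicNorm.nonneg v)
      _ = padicNorm q v := one_mul _
      _ < padicNorm q u := hx
  have hv' : padicNorm q (c * u + d * v) = padicNorm q u := by
    rw [padicNorm.add_eq_max_of_ne (by rw [hcu]; exact (ne_of_lt hdv).symm), hcu]
    exact max_eq_left hdv.le
  have hau : padicNorm q (a * u) ≤ padicNorm q u := by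
    rw [padicNorm.mul]
    calc padicNorm q a * padicNorm q u ≤ 1 * padicNorm q u :=
          mul_le_mul_of_nonneg_right ha (padicNorm.nonneg u)
      _ = padicNorm q u := one_mul _
  have hbv : padicNorm q (b * v) ≤ padicNorm q u := by
    rw [padicNorm.mul]
    calc padicNorm q b * padicNorm q v ≤ 1 * padicNorm q v :=
          mul_le_mul_of_nonneg_right hb (padicNorm.nonneg v)
      _ = padicNorm q v := one_mul _
      _ ≤ padicNorm q u := hx.le
  refine ⟨?_, ?_⟩
  · show padicNorm q (a * u + b * v) ≤ padicNorm q (c * u + d * v)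
    rw [hv']
    exact le_trans padicNorm.nonarchimedean (max_le hau hbv)
  · show c * u + d * v ≠ 0
    apply ne_of_norm_pos (q := q)
    rw [hv']; exact hu0

/-- type 2 maps `X2` into `X1`. -/
theorem type2_maps {a b c d : ℚ} (ha : padicNorm q a ≤ 1) (hb : padicNorm q b = q)
    (hc : padicNorm q c ≤ (q : ℚ)⁻¹) (hd : padicNorm q d ≤ 1) {x : ℚ × ℚ} (hx : x ∈ X2 q) :
    act a b c d x ∈ X1 q := by
  obtain ⟨u, v⟩ := x
  simp only [X2, Set.mem_ofPred_eq] at hx
  obtain ⟨huv, hv0⟩ := hx
  have hq1 : (1 : ℚ) < q := by exact_mod_cast hq.out.one_lt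
  have hq0 : (0 : ℚ) < q := lt_trans zero_lt_one hq1
  have hvpos : 0 < padicNorm q v := norm_pos_of_ne hv0
  have hbv : padicNorm q (b * v) = q * padicNorm q v := by rw [padicNorm.mul, hb]
  have hlt : padicNorm q v < q * padicNorm q v := by
    calc padicNorm q v = 1 * padicNorm q v := (one_mul _).symm
      _ < q * padicNorm q v := mul_lt_mul_of_pos_right hq1 hvpos
  have hau : padicNorm q (a * u) ≤ padicNorm q v := by
    rw [padicNorm.mul]
    calc padicNorm q a * padicNorm q u ≤ 1 * padicNorm q u :=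
          mul_le_mul_of_nonneg_right ha (padicNorm.nonneg u)
      _ = padicNorm q u := one_mul _
      _ ≤ padicNorm q v := huv
  have hu' : padicNorm q (a * u + b * v) = q * padicNorm q v := by
    rw [padicNorm.add_eq_max_of_ne (by rw [hbv]; exact ne_of_lt (lt_of_le_of_lt hau hlt)), hbv]
    exact max_eq_right (le_trans hau hlt.le)
  have hqinv : (q : ℚ)⁻¹ ≤ 1 := inv_le_one_of_one_le₀ hq1.le
  have hcu : padicNorm q (c * u) ≤ padicNorm q v := by
    rw [padicNorm.mul]
    calc padicNorm q c * padicNorm q u ≤ 1 * padicNorm q u :=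
          mul_le_mul_of_nonneg_right (le_trans hc hqinv) (padicNorm.nonneg u)
      _ = padicNorm q u := one_mul _
      _ ≤ padicNorm q v := huv
  have hdv : padicNorm q (d * v) ≤ padicNorm q v := by
    rw [padicNorm.mul]
    calc padicNorm q d * padicNorm q v ≤ 1 * padicNorm q v :=
          mul_le_mul_of_nonneg_right hd (padicNorm.nonneg v)
      _ = padicNorm q v := one_mul _
  show padicNorm q (c * u + d * v) < padicNorm q (a * u + b * v)
  rw [hu']
  exact lt_of_le_of_lt (le_trans padicNorm.nonarchimedean (max_le hcu hdv)) hlt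

/-- base matrices preserve `X1`. -/
theorem base_maps_X1 {a b c d : ℚ} (ha : padicNorm q a = 1) (hb : padicNorm q b ≤ 1)
    (hc : padicNorm q c < 1) (hd : padicNorm q d ≤ 1) {x : ℚ × ℚ} (hx : x ∈ X1 q) :
    act a b c d x ∈ X1 q := by
  obtain ⟨u, v⟩ := x
  simp only [X1, Set.mem_ofPred_eq] at hx
  have hu0 : 0 < padicNorm q u := lt_of_le_of_lt (padicNorm.nonneg v) hx
  have hau : padicNorm q (a * u) = padicNorm q u := by rw [padicNorm.mul, ha, one_mul]
  have hbv : padicNorm q (b * v) < padicNorm q u := by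
    rw [padicNorm.mul]
    calc padicNorm q b * padicNorm q v ≤ 1 * padicNorm q v :=
          mul_le_mul_of_nonneg_right hb (padicNorm.nonneg v)
      _ = padicNorm q v := one_mul _
      _ < padicNorm q u := hx
  have hu' : padicNorm q (a * u + b * v) = padicNorm q u := by
    rw [padicNorm.add_eq_max_of_ne (by rw [hau]; exact (ne_of_lt hbv).symm), hau]
    exact max_eq_left hbv.le
  have hcu : padicNorm q (c * u) < padicNorm q u := by
    rw [padicNorm.mul]
    calc padicNorm q c * padicNorm q u < 1 * padicNorm q u := mul_lt_mul_of_pos_right hc hu0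
      _ = padicNorm q u := one_mul _
  have hdv : padicNorm q (d * v) < padicNorm q u := by
    rw [padicNorm.mul]
    calc padicNorm q d * padicNorm q v ≤ 1 * padicNorm q v :=
          mul_le_mul_of_nonneg_right hd (padicNorm.nonneg v)
      _ = padicNorm q v := one_mul _
      _ < padicNorm q u := hx
  show padicNorm q (c * u + d * v) < padicNorm q (a * u + b * v)
  rw [hu']
  exact lt_of_le_of_lt padicNorm.nonarchimedean (max_lt hcu hdv)

/-- base matrices preserve `X2`. -/
theorem base_maps_X2 {a b c d : ℚ} (ha : padicNorm q a ≤ 1) (hb : padicNorm q b ≤ 1)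
    (hc : padicNorm q c < 1) (hd : padicNorm q d = 1) {x : ℚ × ℚ} (hx : x ∈ X2 q) :
    act a b c d x ∈ X2 q := by
  obtain ⟨u, v⟩ := x
  simp only [X2, Set.mem_ofPred_eq] at hx
  obtain ⟨huv, hv0⟩ := hx
  have hvpos : 0 < padicNorm q v := norm_pos_of_ne hv0
  have hdv : padicNorm q (d * v) = padicNorm q v := by rw [padicNorm.mul, hd, one_mul]
  have hcu : padicNorm q (c * u) < padicNorm q v := by
    rw [padicNorm.mul]
    rcases eq_or_ne u 0 with rfl | hu
    · simpa using hvpos
    · calc padicNorm q c * padicNorm q u < 1 * padicNorm q u :=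
            mul_lt_mul_of_pos_right hc (norm_pos_of_ne hu)
        _ = padicNorm q u := one_mul _
        _ ≤ padicNorm q v := huv
  have hv' : padicNorm q (c * u + d * v) = padicNorm q v := by
    rw [padicNorm.add_eq_max_of_ne (by rw [hdv]; exact ne_of_lt hcu), hdv]
    exact max_eq_right hcu.le
  have hau : padicNorm q (a * u) ≤ padicNorm q v := by
    rw [padicNorm.mul]
    calc padicNorm q a * padicNorm q u ≤ 1 * padicNorm q u :=
          mul_le_mul_of_nonneg_right ha (padicNorm.nonneg u)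
      _ = padicNorm q u := one_mul _
      _ ≤ padicNorm q v := huv
  have hbv : padicNorm q (b * v) ≤ padicNorm q v := by
    rw [padicNorm.mul]
    calc padicNorm q b * padicNorm q v ≤ 1 * padicNorm q v :=
          mul_le_mul_of_nonneg_right hb (padicNorm.nonneg v)
      _ = padicNorm q v := one_mul _
  refine ⟨?_, ?_⟩
  · show padicNorm q (a * u + b * v) ≤ padicNorm q (c * u + d * v)
    rw [hv']
    exact le_trans padicNorm.nonarchimedean (max_le hau hbv)
  · show c * u + d * v ≠ 0
    apply ne_of_norm_pos (q := q)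
    rw [hv']; exact hvpos

/-- strictness for type 1: some point of `X2` is sent into `X2`. -/
theorem type1_strict {a b c d : ℚ} (ha : padicNorm q a ≤ 1) (hb : padicNorm q b ≤ 1)
    (hc : padicNorm q c = 1) (hd : padicNorm q d ≤ 1) :
    ∃ x ∈ X2 q, act a b c d x ∈ X2 q := by
  rcases eq_or_lt_of_le hd with hd1 | hdlt
  · refine ⟨(0, 1), zero_one_mem_X2 q, ?_⟩
    simp only [act, X2, Set.mem_ofPred_eq, mul_zero, mul_one, zero_add]
    refine ⟨by rw [hd1]; exact hb, ?_⟩
    apply ne_of_norm_pos (q := q); rw [hd1]; exact one_pos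
  · refine ⟨(1, 1), by simp [X2], ?_⟩
    simp only [act, X2, Set.mem_ofPred_eq, mul_one]
    have hcd : padicNorm q (c + d) = 1 := by
      rw [padicNorm.add_eq_max_of_ne (by rw [hc]; exact (ne_of_lt hdlt).symm), hc]
      exact max_eq_left hdlt.le
    refine ⟨?_, ?_⟩
    · rw [hcd]; exact le_trans padicNorm.nonarchimedean (max_le ha hb)
    · apply ne_of_norm_pos (q := q); rw [hcd]; exact one_pos

/-- strictness for type 2: some point of `X1` is sent into `X1`. -/
theorem type2_strict {a b c d : ℚ} (ha : padicNorm q a ≤ 1) (hb : padicNorm q b = q)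
    (hc : padicNorm q c ≤ (q : ℚ)⁻¹) (hd : padicNorm q d ≤ 1) :
    ∃ x ∈ X1 q, act a b c d x ∈ X1 q := by
  have hq1 : (1 : ℚ) < q := by exact_mod_cast hq.out.one_lt
  have hq0 : (0 : ℚ) < q := lt_trans zero_lt_one hq1
  have hqinv : (q : ℚ)⁻¹ < 1 := inv_lt_one_of_one_lt₀ hq1
  have hqn : padicNorm q (q : ℚ) = (q : ℚ)⁻¹ := padicNorm.padicNorm_p_of_prime
  rcases eq_or_lt_of_le ha with ha1 | halt
  · refine ⟨(1, 0), one_zero_mem_X1 q, ?_⟩
    simp only [act, X1, Set.mem_ofPred_eq, mul_zero, mul_one, add_zero]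
    rw [ha1]; exact lt_of_le_of_lt hc hqinv
  · refine ⟨(1, (q : ℚ)), by simp only [X1, Set.mem_ofPred_eq, hqn, padicNorm.one]; exact hqinv, ?_⟩
    simp only [act, X1, Set.mem_ofPred_eq, mul_one]
    have hbq : padicNorm q (b * q) = 1 := by
      rw [padicNorm.mul, hb, hqn, mul_inv_cancel₀ (ne_of_gt hq0)]
    have hu' : padicNorm q (a + b * q) = 1 := by
      rw [padicNorm.add_eq_max_of_ne (by rw [hbq]; exact ne_of_lt halt), hbq]
      exact max_eq_right halt.le
    have hdq : padicNorm q (d * q) ≤ (q : ℚ)⁻¹ := by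
      rw [padicNorm.mul, hqn]
      calc padicNorm q d * (q : ℚ)⁻¹ ≤ 1 * (q : ℚ)⁻¹ :=
            mul_le_mul_of_nonneg_right hd (inv_nonneg.2 hq0.le)
        _ = (q : ℚ)⁻¹ := one_mul _
    rw [hu']
    exact lt_of_le_of_lt (le_trans padicNorm.nonarchimedean (max_le hc hdq)) hqinv

end Fermat.Agent.S41.Amalgam.PingPong
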