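/-
S41 volunteer leaf (R2a), file 2/4: the groups of Ihara's amalgam inside `SL₂(ℚ)`.

* `A q`      : the subring `ℤ[1/q]` of `ℚ`;
* `Gam q N`  : `Γ₀(N)[1/q]` = matrices with entries in `ℤ[1/q]` and lower-left entry in `N·ℤ[1/q]`;
* `Gam1 N`   : the integral ones (the image of `Γ₀(N)`);
* `Gam2 q N` : `β⁻¹ Γ₀(N) β`, `β = diag(q,1)`: matrices `(a, b/q; q·N·c, d)`, `a b c d : ℤ`;
* `Gam1 N ⊓ Gam2 q N` = integral with lower-left entry divisible by `q·N` (the image of `Γ₀(Nq)`).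

We also record the `q`-adic sizes of the entries of the three kinds of elements (the inputs of
`PingPong`) and the action `smulV` of `SL₂(ℚ)` on column vectors `ℚ × ℚ`.
Mathlib only.
-/
import Mathlib
import Fermat.Agent.S41.Amalgam.PingPong

set_option autoImplicit false

namespace Fermat.Agent.S41.Amalgam.Groups

open Matrix Fermat.Agent.S41.Amalgam.PingPong

/-- `SL₂(ℚ)`. -/
abbrev SL2Q := Matrix.SpecialLinearGroup (Fin 2) ℚ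

theorem det_eq (γ : SL2Q) : γ 0 0 * γ 1 1 - γ 0 1 * γ 1 0 = 1 := by
  have h := γ.det_coe
  rw [Matrix.det_fin_two] at h
  exact h

theorem mul_apply' (γ γ' : SL2Q) (i j : Fin 2) :
    (γ * γ') i j = γ i 0 * γ' 0 j + γ i 1 * γ' 1 j := by
  rw [Matrix.SpecialLinearGroup.coe_mul, Matrix.mul_apply, Fin.sum_univ_two]

theorem inv_apply_00 (γ : SL2Q) : (γ⁻¹) 0 0 = γ 1 1 := by
  rw [Matrix.SpecialLinearGroup.coe_inv, Matrix.adjugate_fin_two]; rfl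

theorem inv_apply_01 (γ : SL2Q) : (γ⁻¹) 0 1 = - γ 0 1 := by
  rw [Matrix.SpecialLinearGroup.coe_inv, Matrix.adjugate_fin_two]; rfl

theorem inv_apply_10 (γ : SL2Q) : (γ⁻¹) 1 0 = - γ 1 0 := by
  rw [Matrix.SpecialLinearGroup.coe_inv, Matrix.adjugate_fin_two]; rfl

theorem inv_apply_11 (γ : SL2Q) : (γ⁻¹) 1 1 = γ 0 0 := by
  rw [Matrix.SpecialLinearGroup.coe_inv, Matrix.adjugate_fin_two]; rfl

theorem one_apply_00 : (1 : SL2Q) 0 0 = 1 := by simp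
theorem one_apply_01 : (1 : SL2Q) 0 1 = 0 := by simp
theorem one_apply_10 : (1 : SL2Q) 1 0 = 0 := by simp
theorem one_apply_11 : (1 : SL2Q) 1 1 = 1 := by simp

/-- Quantification over the four entries. -/
theorem forall_fin2 {P : Fin 2 → Fin 2 → Prop} :
    (∀ i j, P i j) ↔ P 0 0 ∧ P 0 1 ∧ P 1 0 ∧ P 1 1 := by
  constructor
  · intro h; exact ⟨h 0 0, h 0 1, h 1 0, h 1 1⟩
  · rintro ⟨h00, h01, h10, h11⟩ i j
    fin_cases i <;> fin_cases j <;> assumption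

section ring

variable (q : ℕ)

/-- `ℤ[1/q]` as a subring of `ℚ`. -/
def A : Subring ℚ where
  carrier := {x | ∃ k : ℕ, ∃ m : ℤ, x * (q : ℚ) ^ k = m}
  mul_mem' := by
    rintro x y ⟨k, m, hx⟩ ⟨l, n, hy⟩
    refine ⟨k + l, m * n, ?_⟩
    push_cast
    rw [← hx, ← hy]; ring
  one_mem' := ⟨0, 1, by simp⟩
  add_mem' := by
    rintro x y ⟨k, m, hx⟩ ⟨l, n, hy⟩
    refine ⟨k + l, m * q ^ l + n * q ^ k, ?_⟩
    push_cast
    rw [← hx, ← hy]; ring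
  zero_mem' := ⟨0, 0, by simp⟩
  neg_mem' := by
    rintro x ⟨k, m, hx⟩
    refine ⟨k, -m, ?_⟩
    push_cast
    rw [← hx]; ring

theorem mem_A {x : ℚ} : x ∈ A q ↔ ∃ k : ℕ, ∃ m : ℤ, x * (q : ℚ) ^ k = m := Iff.rfl

theorem int_mem_A (m : ℤ) : (m : ℚ) ∈ A q := ⟨0, m, by simp⟩

theorem nat_mem_A (m : ℕ) : (m : ℚ) ∈ A q := ⟨0, m, by simp⟩

theorem inv_q_mem_A (hq : q ≠ 0) : ((q : ℚ))⁻¹ ∈ A q :=
  ⟨1, 1, by
    have : (q : ℚ) ≠ 0 := by exact_mod_cast hq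
    simp [this]⟩

theorem int_div_q_mem_A (hq : q ≠ 0) (m : ℤ) : (m : ℚ) / q ∈ A q := by
  rw [div_eq_mul_inv]
  exact (A q).mul_mem (int_mem_A q m) (inv_q_mem_A q hq)

end ring

section groups

variable (q N : ℕ)

/-- `Γ₀(N)[1/q]` inside `SL₂(ℚ)`. -/
def Gam : Subgroup SL2Q where
  carrier := {γ | (∀ i j, γ i j ∈ A q) ∧ ∃ y ∈ A q, γ 1 0 = N * y}
  mul_mem' := by
    rintro γ γ' ⟨h, y, hy, hc⟩ ⟨h', y', hy', hc'⟩
    refine ⟨fun i j => ?_, y * γ' 0 0 + γ 1 1 * y', ?_, ?_⟩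
    · rw [mul_apply']
      exact (A q).add_mem ((A q).mul_mem (h i 0) (h' 0 j)) ((A q).mul_mem (h i 1) (h' 1 j))
    · exact (A q).add_mem ((A q).mul_mem hy (h' 0 0)) ((A q).mul_mem (h 1 1) hy')
    · rw [mul_apply', hc, hc']; ring
  one_mem' := by
    refine ⟨?_, 0, (A q).zero_mem, by simp⟩
    rw [forall_fin2]
    refine ⟨?_, ?_, ?_, ?_⟩ <;> simp [(A q).one_mem, (A q).zero_mem]
  inv_mem' := by
    rintro γ ⟨h, y, hy, hc⟩
    refine ⟨?_, -y, (A q).neg_mem hy, ?_⟩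
    · rw [forall_fin2]
      rw [inv_apply_00, inv_apply_01, inv_apply_10, inv_apply_11]
      exact ⟨h 1 1, (A q).neg_mem (h 0 1), (A q).neg_mem (h 1 0), h 0 0⟩
    · rw [inv_apply_10, hc]; ring

theorem mem_Gam {γ : SL2Q} :
    γ ∈ Gam q N ↔ (∀ i j, γ i j ∈ A q) ∧ ∃ y ∈ A q, γ 1 0 = N * y := Iff.rfl

/-- The integral part: the image of `Γ₀(N)`. -/
def Gam1 : Subgroup SL2Q where
  carrier := {γ | (∀ i j, ∃ m : ℤ, γ i j = m) ∧ ∃ m : ℤ, γ 1 0 = N * m}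
  mul_mem' := by
    rintro γ γ' ⟨h, y, hc⟩ ⟨h', y', hc'⟩
    refine ⟨fun i j => ?_, ?_⟩
    · obtain ⟨m1, h1⟩ := h i 0
      obtain ⟨m2, h2⟩ := h' 0 j
      obtain ⟨m3, h3⟩ := h i 1
      obtain ⟨m4, h4⟩ := h' 1 j
      exact ⟨m1 * m2 + m3 * m4, by rw [mul_apply', h1, h2, h3, h4]; push_cast; ring⟩
    · obtain ⟨m2, h2⟩ := h' 0 0
      obtain ⟨m3, h3⟩ := h 1 1
      exact ⟨y * m2 + m3 * y', by rw [mul_apply', hc, hc', h2, h3]; push_cast; ring⟩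
  one_mem' := by
    refine ⟨?_, 0, by simp⟩
    rw [forall_fin2]
    exact ⟨⟨1, by simp⟩, ⟨0, by simp⟩, ⟨0, by simp⟩, ⟨1, by simp⟩⟩
  inv_mem' := by
    rintro γ ⟨h, y, hc⟩
    refine ⟨?_, -y, by rw [inv_apply_10, hc]; push_cast; ring⟩
    rw [forall_fin2, inv_apply_00, inv_apply_01, inv_apply_10, inv_apply_11]
    obtain ⟨m00, h00⟩ := h 0 0
    obtain ⟨m01, h01⟩ := h 0 1
    obtain ⟨m10, h10⟩ := h 1 0
    obtain ⟨m11, h11⟩ := h 1 1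
    exact ⟨⟨m11, h11⟩, ⟨-m01, by rw [h01]; push_cast; ring⟩,
      ⟨-m10, by rw [h10]; push_cast; ring⟩, ⟨m00, h00⟩⟩

theorem mem_Gam1 {γ : SL2Q} :
    γ ∈ Gam1 N ↔ (∀ i j, ∃ m : ℤ, γ i j = m) ∧ ∃ m : ℤ, γ 1 0 = N * m := Iff.rfl

variable [hq : Fact q.Prime]

theorem q_ne_zero : (q : ℚ) ≠ 0 := by exact_mod_cast hq.out.ne_zero

/-- `β⁻¹ Γ₀(N) β` with `β = diag(q,1)`: the matrices `(a, b/q; q·N·c, d)`. -/
def Gam2 : Subgroup SL2Q where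
  carrier := {γ | ∃ a b c d : ℤ, γ 0 0 = a ∧ γ 0 1 = b / q ∧ γ 1 0 = q * (N * c) ∧ γ 1 1 = d}
  mul_mem' := by
    rintro γ γ' ⟨a, b, c, d, h00, h01, h10, h11⟩ ⟨a', b', c', d', h00', h01', h10', h11'⟩
    have hq0 : (q : ℚ) ≠ 0 := q_ne_zero q
    refine ⟨a * a' + b * (N * c'), a * b' + b * d', c * a' + d * c', N * c * b' + d * d', ?_, ?_, ?_, ?_⟩
    · rw [mul_apply', h00, h00', h01, h10']; push_cast; field_simp
    · rw [mul_apply', h00, h01', h01, h11']; push_cast; field_simp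
    · rw [mul_apply', h10, h00', h11, h10']; push_cast; ring
    · rw [mul_apply', h10, h01', h11, h11']; push_cast; field_simp
  one_mem' := ⟨1, 0, 0, 1, by simp, by simp, by simp, by simp⟩
  inv_mem' := by
    rintro γ ⟨a, b, c, d, h00, h01, h10, h11⟩
    refine ⟨d, -b, -c, a, ?_, ?_, ?_, ?_⟩
    · rw [inv_apply_00, h11]
    · rw [inv_apply_01, h01]; push_cast; ring
    · rw [inv_apply_10, h10]; push_cast; ring
    · rw [inv_apply_11, h00]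

theorem mem_Gam2 {γ : SL2Q} :
    γ ∈ Gam2 q N ↔ ∃ a b c d : ℤ, γ 0 0 = a ∧ γ 0 1 = b / q ∧ γ 1 0 = q * (N * c) ∧ γ 1 1 = d :=
  Iff.rfl

omit hq in
theorem Gam1_le : Gam1 N ≤ Gam q N := by
  rintro γ ⟨h, m, hc⟩
  refine ⟨fun i j => ?_, m, int_mem_A q m, hc⟩
  obtain ⟨n, hn⟩ := h i j
  rw [hn]; exact int_mem_A q n

theorem Gam2_le : Gam2 q N ≤ Gam q N := by
  rintro γ ⟨a, b, c, d, h00, h01, h10, h11⟩
  refine ⟨?_, (q : ℚ) * c, (A q).mul_mem (nat_mem_A q q) (int_mem_A q c), by rw [h10]; ring⟩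
  rw [forall_fin2, h00, h01, h10, h11]
  refine ⟨int_mem_A q a, int_div_q_mem_A q hq.out.ne_zero b, ?_, int_mem_A q d⟩
  exact (A q).mul_mem (nat_mem_A q q) ((A q).mul_mem (nat_mem_A q N) (int_mem_A q c))

/-- The intersection `Γ₁ ⊓ Γ₂`: integral, lower-left entry divisible by `q·N`. -/
theorem mem_inf_iff {γ : SL2Q} :
    γ ∈ Gam1 N ⊓ Gam2 q N ↔ (∀ i j, ∃ m : ℤ, γ i j = m) ∧ ∃ m : ℤ, γ 1 0 = q * (N * m) := by
  constructor
  · rintro ⟨⟨h, _⟩, ⟨a, b, c, d, _, _, h10, _⟩⟩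
    exact ⟨h, c, h10⟩
  · rintro ⟨h, m, hc⟩
    refine ⟨⟨h, q * m, by rw [hc]; push_cast; ring⟩, ?_⟩
    obtain ⟨m00, h00⟩ := h 0 0
    obtain ⟨m01, h01⟩ := h 0 1
    obtain ⟨m11, h11⟩ := h 1 1
    refine ⟨m00, q * m01, m, m11, h00, ?_, hc, h11⟩
    rw [h01]; push_cast
    field_simp [q_ne_zero q]

end groups

section norms

variable {q N : ℕ} [hq : Fact q.Prime]

theorem norm_le_one_of_mem_Gam1 {γ : SL2Q} (h : γ ∈ Gam1 N) (i j : Fin 2) :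
    padicNorm q (γ i j) ≤ 1 := by
  obtain ⟨m, hm⟩ := h.1 i j
  rw [hm]; exact padicNorm.of_int m

/-- An element of `Γ₁` outside `Γ₂` has a `q`-adic unit in the lower-left corner. -/
theorem norm_10_of_mem_Gam1_not_mem_Gam2 (hqN : ¬ q ∣ N) {γ : SL2Q} (h : γ ∈ Gam1 N)
    (h2 : γ ∉ Gam2 q N) : padicNorm q (γ 1 0) = 1 := by
  obtain ⟨m, hm⟩ := h.2
  have hm' : γ 1 0 = ((N * m : ℤ) : ℚ) := by rw [hm]; push_cast; ring
  rw [hm', padicNorm.int_eq_one_iff]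
  intro hdvd
  have hqp : Prime (q : ℤ) := Nat.prime_iff_prime_int.mp hq.out
  rcases hqp.dvd_or_dvd hdvd with hN | hmq
  · exact hqN (Int.natCast_dvd_natCast.mp hN)
  · obtain ⟨m', rfl⟩ := hmq
    apply h2
    have : γ ∈ Gam1 N ⊓ Gam2 q N :=
      (mem_inf_iff q N).2 ⟨h.1, m', by rw [hm]; push_cast; ring⟩
    exact this.2

theorem norm_of_mem_Gam2 {γ : SL2Q} (h : γ ∈ Gam2 q N) :
    padicNorm q (γ 0 0) ≤ 1 ∧ padicNorm q (γ 1 0) ≤ (q : ℚ)⁻¹ ∧ padicNorm q (γ 1 1) ≤ 1 := by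
  obtain ⟨a, b, c, d, h00, h01, h10, h11⟩ := h
  refine ⟨by rw [h00]; exact padicNorm.of_int a, ?_, by rw [h11]; exact padicNorm.of_int d⟩
  have hq0 : (0 : ℚ) ≤ (q : ℚ)⁻¹ := by positivity
  have : γ 1 0 = (q : ℚ) * ((N * c : ℤ) : ℚ) := by rw [h10]; push_cast; ring
  rw [this, padicNorm.mul, padicNorm.padicNorm_p_of_prime]
  calc (q : ℚ)⁻¹ * padicNorm q ((N * c : ℤ) : ℚ) ≤ (q : ℚ)⁻¹ * 1 :=
        mul_le_mul_of_nonneg_left (padicNorm.of_int _) hq0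
    _ = (q : ℚ)⁻¹ := mul_one _

/-- An element of `Γ₂` outside `Γ₁` has upper-right entry of `q`-adic size exactly `q`. -/
theorem norm_01_of_mem_Gam2_not_mem_Gam1 {γ : SL2Q} (h : γ ∈ Gam2 q N) (h1 : γ ∉ Gam1 N) :
    padicNorm q (γ 0 1) = q := by
  obtain ⟨a, b, c, d, h00, h01, h10, h11⟩ := h
  have hq0 : (q : ℚ) ≠ 0 := q_ne_zero q
  have hb : padicNorm q (b : ℚ) = 1 := by
    rw [padicNorm.int_eq_one_iff]
    rintro ⟨b', rfl⟩
    apply h1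
    refine ⟨?_, q * c, by rw [h10]; push_cast; ring⟩
    rw [forall_fin2]
    refine ⟨⟨a, h00⟩, ⟨b', ?_⟩, ⟨q * (N * c), by rw [h10]; push_cast; ring⟩, ⟨d, h11⟩⟩
    rw [h01]; push_cast; field_simp
  rw [h01, padicNorm.div, hb, padicNorm.padicNorm_p_of_prime, one_div, inv_inv]

/-- The entries of an element of `Γ₁ ⊓ Γ₂`. -/
theorem norm_of_mem_inf {γ : SL2Q} (h : γ ∈ Gam1 N ⊓ Gam2 q N) :
    padicNorm q (γ 0 0) = 1 ∧ padicNorm q (γ 0 1) ≤ 1 ∧ padicNorm q (γ 1 0) < 1 ∧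
      padicNorm q (γ 1 1) = 1 := by
  have hq1 : (1 : ℚ) < q := by exact_mod_cast hq.out.one_lt
  have hqinv : (q : ℚ)⁻¹ < 1 := inv_lt_one_of_one_lt₀ hq1
  have ha := norm_le_one_of_mem_Gam1 (q := q) h.1 0 0
  have hb := norm_le_one_of_mem_Gam1 (q := q) h.1 0 1
  have hd := norm_le_one_of_mem_Gam1 (q := q) h.1 1 1
  have hc : padicNorm q (γ 1 0) < 1 := lt_of_le_of_lt (norm_of_mem_Gam2 h.2).2.1 hqinv
  have hbc : padicNorm q (γ 0 1 * γ 1 0) < 1 := by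
    rw [padicNorm.mul]
    calc padicNorm q (γ 0 1) * padicNorm q (γ 1 0) ≤ 1 * padicNorm q (γ 1 0) :=
          mul_le_mul_of_nonneg_right hb (padicNorm.nonneg _)
      _ = padicNorm q (γ 1 0) := one_mul _
      _ < 1 := hc
  have had : padicNorm q (γ 0 0 * γ 1 1) = 1 := by
    have : γ 0 0 * γ 1 1 = 1 + γ 0 1 * γ 1 0 := by linarith [det_eq γ]
    rw [this, padicNorm.add_eq_max_of_ne (by rw [padicNorm.one]; exact (ne_of_lt hbc).symm),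
      padicNorm.one]
    exact max_eq_left hbc.le
  rw [padicNorm.mul] at had
  have ha0 : 0 ≤ padicNorm q (γ 0 0) := padicNorm.nonneg _
  have hd0 : 0 ≤ padicNorm q (γ 1 1) := padicNorm.nonneg _
  refine ⟨?_, hb, hc, ?_⟩
  · by_contra hne
    have hlt : padicNorm q (γ 0 0) < 1 := lt_of_le_of_ne ha hne
    have : padicNorm q (γ 0 0) * padicNorm q (γ 1 1) < 1 := by
      calc padicNorm q (γ 0 0) * padicNorm q (γ 1 1) ≤ padicNorm q (γ 0 0) * 1 :=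
            mul_le_mul_of_nonneg_left hd ha0
        _ = padicNorm q (γ 0 0) := mul_one _
        _ < 1 := hlt
    linarith
  · by_contra hne
    have hlt : padicNorm q (γ 1 1) < 1 := lt_of_le_of_ne hd hne
    have : padicNorm q (γ 0 0) * padicNorm q (γ 1 1) < 1 := by
      calc padicNorm q (γ 0 0) * padicNorm q (γ 1 1) ≤ 1 * padicNorm q (γ 1 1) :=
            mul_le_mul_of_nonneg_right ha hd0
        _ = padicNorm q (γ 1 1) := one_mul _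
        _ < 1 := hlt
    linarith

end norms

section action

/-- The action of `SL₂(ℚ)` on column vectors, in the `PingPong.act` form. -/
def smulV (γ : SL2Q) (x : ℚ × ℚ) : ℚ × ℚ := act (γ 0 0) (γ 0 1) (γ 1 0) (γ 1 1) x

theorem smulV_one (x : ℚ × ℚ) : smulV 1 x = x := by
  simp [smulV, act]

theorem smulV_mul (γ γ' : SL2Q) (x : ℚ × ℚ) : smulV (γ * γ') x = smulV γ (smulV γ' x) := by
  simp only [smulV, act, mul_apply']
  ext <;> simp <;> ring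

variable {q N : ℕ} [hq : Fact q.Prime]

/-- type 1 elements map `X1` into `X2`. -/
theorem smulV_mem_X2 (hqN : ¬ q ∣ N) {γ : SL2Q} (h : γ ∈ Gam1 N) (h2 : γ ∉ Gam2 q N)
    {x : ℚ × ℚ} (hx : x ∈ X1 q) : smulV γ x ∈ X2 q :=
  type1_maps (norm_le_one_of_mem_Gam1 h 0 0) (norm_le_one_of_mem_Gam1 h 0 1)
    (norm_10_of_mem_Gam1_not_mem_Gam2 hqN h h2) (norm_le_one_of_mem_Gam1 h 1 1) hx

/-- type 2 elements map `X2` into `X1`. -/
theorem smulV_mem_X1 {γ : SL2Q} (h : γ ∈ Gam2 q N) (h1 : γ ∉ Gam1 N)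
    {x : ℚ × ℚ} (hx : x ∈ X2 q) : smulV γ x ∈ X1 q :=
  type2_maps (norm_of_mem_Gam2 h).1 (norm_01_of_mem_Gam2_not_mem_Gam1 h h1)
    (norm_of_mem_Gam2 h).2.1 (norm_of_mem_Gam2 h).2.2 hx

/-- base elements preserve `X1`. -/
theorem smulV_base_X1 {γ : SL2Q} (h : γ ∈ Gam1 N ⊓ Gam2 q N) {x : ℚ × ℚ} (hx : x ∈ X1 q) :
    smulV γ x ∈ X1 q :=
  base_maps_X1 (norm_of_mem_inf h).1 (norm_of_mem_inf h).2.1 (norm_of_mem_inf h).2.2.1
    (norm_of_mem_inf h).2.2.2.le hx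

/-- base elements preserve `X2`. -/
theorem smulV_base_X2 {γ : SL2Q} (h : γ ∈ Gam1 N ⊓ Gam2 q N) {x : ℚ × ℚ} (hx : x ∈ X2 q) :
    smulV γ x ∈ X2 q :=
  base_maps_X2 (norm_of_mem_inf h).1.le (norm_of_mem_inf h).2.1 (norm_of_mem_inf h).2.2.1
    (norm_of_mem_inf h).2.2.2 hx

/-- strictness, type 1. -/
theorem exists_X2_smulV_mem_X2 (hqN : ¬ q ∣ N) {γ : SL2Q} (h : γ ∈ Gam1 N) (h2 : γ ∉ Gam2 q N) :
    ∃ x ∈ X2 q, smulV γ x ∈ X2 q :=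
  type1_strict (norm_le_one_of_mem_Gam1 h 0 0) (norm_le_one_of_mem_Gam1 h 0 1)
    (norm_10_of_mem_Gam1_not_mem_Gam2 hqN h h2) (norm_le_one_of_mem_Gam1 h 1 1)

/-- strictness, type 2. -/
theorem exists_X1_smulV_mem_X1 {γ : SL2Q} (h : γ ∈ Gam2 q N) (h1 : γ ∉ Gam1 N) :
    ∃ x ∈ X1 q, smulV γ x ∈ X1 q :=
  type2_strict (norm_of_mem_Gam2 h).1 (norm_01_of_mem_Gam2_not_mem_Gam1 h h1)
    (norm_of_mem_Gam2 h).2.1 (norm_of_mem_Gam2 h).2.2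

end action

end Fermat.Agent.S41.Amalgam.Groups
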